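/-
T16 / LB (lower bound), abstract CONG core (helper43).  Mathlib only.

Setting (all abstract):
* `S`  : a space (think `S₂(Γ₀ p) × S₂(Γ₀ p)`) with operators `tS i` (think `T_ℓ`, `U_p`);
* `W`  : think `Hom(Γ₀ p, ℂ)` with cohomological operators `cC i`;
  `Per : S →+ W` equivariant (think `periodHomPair`);
* `WZ` : think `Hom(Γ₀ p, ℤ)` with operators `cZ i`, `j : WZ →+ W` injective and natural;
* `Wn` : think `Hom(Γ₀ p, ℤ/n)` with operators `cn i`, `red : WZ →+ Wn` natural;
* `Φ : WZ` with `j Φ ∈ range Per` (a parabolic integral class, by S21) whose reduction `red Φ`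
  is an eigenclass with eigenvalues `lam i ∈ ℤ` and has exact order `n`.

Conclusion: every (non-commutative) polynomial `Q` in the operators that kills `S` satisfies
`n ∣ Q(lam)`; and the commutative version for `P : MvPolynomial ι ℤ` evaluated in a commutative
ring `A` acting on `S`.  No commutativity of the cohomological operators is needed.

Exports (namespace `Fermat.Agent.S16_helper43`):
`evalEnd`, `evalEnd_intertwine`, `evalEnd_eigen`, `dvd_lift_of_eigen`, `toMv`, `toMv_surjective`,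
`lift_eq_aeval_toMv`, `evalEnd_eq_map_aeval_toMv`, `dvd_aeval_of_eigen`.
-/
import Mathlib

set_option autoImplicit false

namespace Fermat.Agent.S16_helper43

variable {ι : Type*}

/-- Evaluation of a non-commutative polynomial at a family of additive endomorphisms. -/
noncomputable def evalEnd {M : Type*} [AddCommGroup M] (f : ι → AddMonoid.End M) :
    FreeAlgebra ℤ ι →ₐ[ℤ] AddMonoid.End M :=
  FreeAlgebra.lift ℤ f

@[simp] lemma evalEnd_ι {M : Type*} [AddCommGroup M] (f : ι → AddMonoid.End M) (i : ι) :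
    evalEnd f (FreeAlgebra.ι ℤ i) = f i := by
  simp [evalEnd]

lemma end_add_apply {M : Type*} [AddCommGroup M] (a b : AddMonoid.End M) (x : M) :
    (a + b) x = a x + b x := rfl

lemma evalEnd_algebraMap_apply {M : Type*} [AddCommGroup M] (f : ι → AddMonoid.End M) (r : ℤ)
    (x : M) : evalEnd f (algebraMap ℤ (FreeAlgebra ℤ ι) r) x = r • x := by
  rw [AlgHom.commutes, Algebra.algebraMap_eq_smul_one]
  simp

/-- An additive map intertwining the generators intertwines every word-polynomial. -/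
theorem evalEnd_intertwine {M N : Type*} [AddCommGroup M] [AddCommGroup N]
    (f : ι → AddMonoid.End M) (g : ι → AddMonoid.End N) (φ : M →+ N)
    (h : ∀ i x, φ (f i x) = g i (φ x)) (Q : FreeAlgebra ℤ ι) (x : M) :
    φ (evalEnd f Q x) = evalEnd g Q (φ x) := by
  induction Q using FreeAlgebra.induction generalizing x with
  | grade0 r => rw [evalEnd_algebraMap_apply, evalEnd_algebraMap_apply, map_zsmul]
  | grade1 i => rw [evalEnd_ι, evalEnd_ι, h]
  | mul a b ha hb =>
    rw [map_mul, map_mul, AddMonoid.End.coe_mul, AddMonoid.End.coe_mul, Function.comp_apply,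
      Function.comp_apply, ha, hb]
  | add a b ha hb =>
    rw [map_add, map_add, end_add_apply, end_add_apply, map_add, ha, hb]

/-- On a simultaneous eigenvector with integer eigenvalues a word-polynomial acts through its
value at the eigenvalues. -/
theorem evalEnd_eigen {M : Type*} [AddCommGroup M] (f : ι → AddMonoid.End M) (lam : ι → ℤ)
    (ψ : M) (h : ∀ i, f i ψ = lam i • ψ) (Q : FreeAlgebra ℤ ι) :
    evalEnd f Q ψ = (FreeAlgebra.lift ℤ lam Q) • ψ := by
  induction Q using FreeAlgebra.induction with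
  | grade0 r =>
    rw [evalEnd_algebraMap_apply, AlgHom.commutes]
    simp
  | grade1 i => rw [evalEnd_ι, h, FreeAlgebra.lift_ι_apply]
  | mul a b ha hb =>
    rw [map_mul, map_mul, AddMonoid.End.coe_mul, Function.comp_apply, hb, map_zsmul, ha,
      smul_smul, mul_comm]
  | add a b ha hb =>
    rw [map_add, map_add, end_add_apply, ha, hb, add_smul]

/-- **Abstract CONG lemma, non-commutative form.** -/
theorem dvd_lift_of_eigen {S W WZ Wn : Type*} [AddCommGroup S] [AddCommGroup W]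
    [AddCommGroup WZ] [AddCommGroup Wn]
    (tS : ι → AddMonoid.End S) (cC : ι → AddMonoid.End W) (cZ : ι → AddMonoid.End WZ)
    (cn : ι → AddMonoid.End Wn)
    (Per : S →+ W) (hPer : ∀ i x, Per (tS i x) = cC i (Per x))
    (j : WZ →+ W) (hj : Function.Injective j) (hjc : ∀ i φ, j (cZ i φ) = cC i (j φ))
    (red : WZ →+ Wn) (hred : ∀ i φ, red (cZ i φ) = cn i (red φ))
    (Φ : WZ) (hΦ : j Φ ∈ AddMonoidHom.range Per)
    (lam : ι → ℤ) (heig : ∀ i, cn i (red Φ) = lam i • red Φ)
    (n : ℕ) (hord : ∀ k : ℤ, k • red Φ = 0 → (n : ℤ) ∣ k)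
    (Q : FreeAlgebra ℤ ι) (hQ : evalEnd tS Q = 0) :
    (n : ℤ) ∣ FreeAlgebra.lift ℤ lam Q := by
  apply hord
  obtain ⟨x, hx⟩ := hΦ
  have h1 : evalEnd cC Q (j Φ) = 0 := by
    rw [← hx, ← evalEnd_intertwine tS cC Per hPer Q x, hQ]
    simp
  have h2 : evalEnd cZ Q Φ = 0 := by
    apply hj
    rw [evalEnd_intertwine cZ cC j hjc Q Φ, h1, map_zero]
  have h3 : evalEnd cn Q (red Φ) = 0 := by
    rw [← evalEnd_intertwine cZ cn red hred Q Φ, h2, map_zero]
  rw [← evalEnd_eigen cn lam (red Φ) heig Q, h3]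

/-- The canonical map from non-commutative to commutative polynomials. -/
noncomputable def toMv : FreeAlgebra ℤ ι →ₐ[ℤ] MvPolynomial ι ℤ :=
  FreeAlgebra.lift ℤ (MvPolynomial.X : ι → MvPolynomial ι ℤ)

@[simp] lemma toMv_ι (i : ι) : toMv (FreeAlgebra.ι ℤ i) = (MvPolynomial.X i : MvPolynomial ι ℤ) := by
  simp [toMv]

theorem toMv_surjective : Function.Surjective (toMv : FreeAlgebra ℤ ι → MvPolynomial ι ℤ) := by
  intro P
  induction P using MvPolynomial.induction_on with
  | C a => exact ⟨algebraMap ℤ _ a, by rw [AlgHom.commutes]; rfl⟩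
  | add p q hp hq =>
    obtain ⟨a, rfl⟩ := hp
    obtain ⟨b, rfl⟩ := hq
    exact ⟨a + b, map_add _ _ _⟩
  | mul_X p i hp =>
    obtain ⟨a, rfl⟩ := hp
    exact ⟨a * FreeAlgebra.ι ℤ i, by rw [map_mul, toMv_ι]⟩

theorem lift_eq_aeval_toMv (lam : ι → ℤ) (Q : FreeAlgebra ℤ ι) :
    FreeAlgebra.lift ℤ lam Q = MvPolynomial.aeval lam (toMv Q) := by
  have h : (FreeAlgebra.lift ℤ lam : FreeAlgebra ℤ ι →ₐ[ℤ] ℤ) =
      (MvPolynomial.aeval lam).comp toMv := by
    apply FreeAlgebra.hom_ext
    funext i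
    simp
  rw [h]
  rfl

theorem evalEnd_eq_map_aeval_toMv {M A : Type*} [AddCommGroup M] [CommRing A] (g : ι → A)
    (ρ : A →+* AddMonoid.End M) (Q : FreeAlgebra ℤ ι) :
    evalEnd (fun i => ρ (g i)) Q = ρ (MvPolynomial.aeval g (toMv Q)) := by
  have h : (evalEnd (fun i => ρ (g i)) : FreeAlgebra ℤ ι →ₐ[ℤ] AddMonoid.End M) =
      (ρ.toIntAlgHom).comp ((MvPolynomial.aeval g).comp toMv) := by
    apply FreeAlgebra.hom_ext
    funext i
    simp [evalEnd]
  rw [h]
  rfl

/-- **Abstract CONG lemma, commutative form**: `A` a commutative ring acting on `S` through `ρ`,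
generated (for our purposes) by `g i` acting as `tS i`; if `P(g)` acts as zero on `S` then
`n ∣ P(lam)`. -/
theorem dvd_aeval_of_eigen {S W WZ Wn A : Type*} [AddCommGroup S] [AddCommGroup W]
    [AddCommGroup WZ] [AddCommGroup Wn] [CommRing A]
    (tS : ι → AddMonoid.End S) (cC : ι → AddMonoid.End W) (cZ : ι → AddMonoid.End WZ)
    (cn : ι → AddMonoid.End Wn)
    (Per : S →+ W) (hPer : ∀ i x, Per (tS i x) = cC i (Per x))
    (j : WZ →+ W) (hj : Function.Injective j) (hjc : ∀ i φ, j (cZ i φ) = cC i (j φ))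
    (red : WZ →+ Wn) (hred : ∀ i φ, red (cZ i φ) = cn i (red φ))
    (Φ : WZ) (hΦ : j Φ ∈ AddMonoidHom.range Per)
    (lam : ι → ℤ) (heig : ∀ i, cn i (red Φ) = lam i • red Φ)
    (n : ℕ) (hord : ∀ k : ℤ, k • red Φ = 0 → (n : ℤ) ∣ k)
    (g : ι → A) (ρ : A →+* AddMonoid.End S) (hρ : ∀ i, ρ (g i) = tS i)
    (P : MvPolynomial ι ℤ) (hP : ρ (MvPolynomial.aeval g P) = 0) :
    (n : ℤ) ∣ MvPolynomial.aeval lam P := by
  obtain ⟨Q, rfl⟩ := toMv_surjective P
  rw [← lift_eq_aeval_toMv]
  have htS : tS = fun i => ρ (g i) := funext fun i => (hρ i).symm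
  refine dvd_lift_of_eigen tS cC cZ cn Per hPer j hj hjc red hred Φ hΦ lam heig n hord Q ?_
  rw [htS, evalEnd_eq_map_aeval_toMv, hP]

end Fermat.Agent.S16_helper43
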